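import Fermat.Agent.DR.Mod.Residue
import Fermat.Agent.DR.Nodal.Galois
import Fermat.Agent.JRED.ESGalois
import Fermat.Agent.JAN.AnFun

set_option autoImplicit false

/-!
# Galois equivariance of the two reductions of `X₀(Mq)`

For `σ` in the decomposition group of `A`, inducing `τ` on `k`:
`GRed π f u → GRed π (σ f) (τ u)`; the Atkin–Lehner automorphism commutes with `σ`; hence the
same compatibility for `redOne` and `redTwo`.
-/

noncomputable section

open AlgebraicCurve ModularCurve IntermediateField
open Fermat.Agent.JRED Fermat.Agent.DR.PairOrtho Fermat.Agent.DR.PairDegree Fermat.Agent.DR.Mod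
open Fermat.Agent.JRED.ESGalois Fermat.Agent.JRED.ESSemi Fermat.Agent.JAN.AnFun

namespace Fermat.Agent.DR.ModGal

section GRed

variable {L : Type*} [Field L] [Algebra ℚ L] {k : Type*} [Field k] {A : ValuationSubring L}
  {π : A →+* k}

/-- **Galois equivariance of the Gauss reduction.** -/
theorem gred_galois {σ : L ≃ₐ[ℚ] L} {τ : k ≃+* k} (hτ : IsResidual π σ τ) {f : LaurentSeries L}
    {u : LaurentSeries k} (h : GRed π f u) :
    GRed π (coeffMap (σ : L →+* L) f) (coeffMap (τ : k →+* k) u) := by
  obtain ⟨hσ, hτ⟩ := hτ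
  obtain ⟨a, b, hb, h1, h2⟩ := h
  set g : A →+* A := (autA hσ : A →+* A) with hg
  have e1 : ∀ x : LaurentSeries A, coeffMap π (coeffMap g x) =
      coeffMap (τ : k →+* k) (coeffMap π x) := by
    intro x
    rw [coeffMap_coeffMap, coeffMap_coeffMap]
    exact coeffMap_congr (RingHom.ext fun y => (hτ y).symm) x
  have e2 : ∀ x : LaurentSeries A, coeffMap A.subtype (coeffMap g x) =
      coeffMap (σ : L →+* L) (coeffMap A.subtype x) := by
    intro x
    rw [coeffMap_coeffMap, coeffMap_coeffMap]
    exact coeffMap_congr (RingHom.ext fun y => coe_autA hσ y) x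
  have hinj : Function.Injective (coeffMap (τ : k →+* k)) := (coeffMap (τ : k →+* k)).injective
  refine ⟨coeffMap g a, coeffMap g b, ?_, ?_, ?_⟩
  · rw [e1]
    exact (map_ne_zero_iff _ hinj).mpr hb
  · rw [e2, e2, ← map_mul, h1]
  · rw [e1, e1, ← map_mul, h2]

end GRed

section AL

variable {L : Type*} [Field L] [Algebra ℚ L] {M q : ℕ} [NeZero M] [NeZero q]

theorem alpha_jdL {d : ℕ} [NeZero d] (hd : d ∣ M) :
    heckeAlphaBar L M q (jdL L d hd) = jdL L d (hd.trans (dvd_mul_right M q)) :=
  Subtype.ext (coe_heckeAlphaBar M q _)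

theorem beta_jdL {d : ℕ} [NeZero d] (hd : d ∣ M) :
    haveI : NeZero (q * d) := ⟨mul_ne_zero (NeZero.ne q) (NeZero.ne d)⟩
    heckeBetaBar L M q (jdL L d hd) = jdL L (q * d) (by
      rw [mul_comm M q]; exact mul_dvd_mul_left q hd) := by
  haveI : NeZero (q * d) := ⟨mul_ne_zero (NeZero.ne q) (NeZero.ne d)⟩
  refine Subtype.ext ?_
  rw [coe_heckeBetaBar]
  change qExpand L q (coeffEmb L (qExpand ℚ d jq)) = coeffEmb L (qExpand ℚ (q * d) jq)
  rw [← qExpand_qExpand, coeffEmb, coeffMap_qExpand, coeffMap_qExpand, coeffMap_qExpand]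

/-- Two homomorphisms on `F_{Mq}` (`q` prime) which agree on constants, `α(F_M)` and `β(F_M)` are
equal. -/
theorem hom_ext_alpha_beta (hq : q.Prime) {R : Type*} [Field R]
    {σ τ : laurentBaseChange L (modularFunctionFieldFull (M * q)) →+* R}
    (hc : ∀ c : L, σ (algebraMap L _ c) = τ (algebraMap L _ c))
    (ha : ∀ x, σ (heckeAlphaBar L M q x) = τ (heckeAlphaBar L M q x))
    (hb : ∀ x, σ (heckeBetaBar L M q x) = τ (heckeBetaBar L M q x)) : σ = τ := by
  refine hom_ext_modular hc fun d _ hd => ?_
  by_cases hqd : q ∣ d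
  · obtain ⟨d', rfl⟩ := hqd
    have hd'0 : d' ≠ 0 := by
      rintro rfl
      exact NeZero.ne (q * 0) (mul_zero q)
    haveI : NeZero d' := ⟨hd'0⟩
    have hd' : d' ∣ M := by
      rw [mul_comm M q] at hd
      exact Nat.dvd_of_mul_dvd_mul_left hq.pos hd
    have h := hb (jdL L d' hd')
    rw [beta_jdL hd'] at h
    exact h
  · have hd' : d ∣ M := by
      rw [mul_comm] at hd
      exact ((Nat.Prime.coprime_iff_not_dvd hq).mpr hqd).symm.dvd_of_dvd_mul_left hd
    have h := ha (jdL L d hd')
    rw [alpha_jdL hd'] at h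
    exact h

theorem galois_alpha (σ : L ≃ₐ[ℚ] L) (x : laurentBaseChange L (modularFunctionFieldFull M)) :
    heckeAlphaBar L M q (arithmeticGalois (modularFunctionFieldFull M) σ • x) =
      arithmeticGalois (modularFunctionFieldFull (M * q)) σ • heckeAlphaBar L M q x := by
  refine Subtype.ext ?_
  rw [coe_heckeAlphaBar, coe_arithmeticGalois_smul, coe_arithmeticGalois_smul, coe_heckeAlphaBar]

theorem galois_beta (σ : L ≃ₐ[ℚ] L) (x : laurentBaseChange L (modularFunctionFieldFull M)) :
    heckeBetaBar L M q (arithmeticGalois (modularFunctionFieldFull M) σ • x) =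
      arithmeticGalois (modularFunctionFieldFull (M * q)) σ • heckeBetaBar L M q x := by
  refine Subtype.ext ?_
  rw [coe_heckeBetaBar, coe_arithmeticGalois_smul, coe_arithmeticGalois_smul, coe_heckeBetaBar,
    coeffMap_qExpand]

variable {w : laurentBaseChange L (modularFunctionFieldFull (M * q)) ≃ₐ[L]
      laurentBaseChange L (modularFunctionFieldFull (M * q))}

theorem smul_algebraMap' {N : ℕ} (σ : L ≃ₐ[ℚ] L) (c : L) :
    arithmeticGalois (modularFunctionFieldFull N) σ •
      (algebraMap L (laurentBaseChange L (modularFunctionFieldFull N)) c) =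
      algebraMap L (laurentBaseChange L (modularFunctionFieldFull N)) (σ c) :=
  arithmeticRingAut_algebraMap (modularFunctionFieldFull N) σ c

/-- The Atkin–Lehner automorphism is defined over `ℚ`. -/
theorem galois_w (hq : q.Prime) (hw : IsAL w) (σ : L ≃ₐ[ℚ] L)
    (x : laurentBaseChange L (modularFunctionFieldFull (M * q))) :
    w (arithmeticGalois (modularFunctionFieldFull (M * q)) σ • x) =
      arithmeticGalois (modularFunctionFieldFull (M * q)) σ • w x := by
  set s : laurentBaseChange L (modularFunctionFieldFull (M * q)) →+*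
      laurentBaseChange L (modularFunctionFieldFull (M * q)) :=
    (arithmeticRingAut (modularFunctionFieldFull (M * q)) σ).toRingHom with hs
  have hs' : ∀ y, s y = arithmeticGalois (modularFunctionFieldFull (M * q)) σ • y := fun y => rfl
  have h : (w : laurentBaseChange L (modularFunctionFieldFull (M * q)) →+*
      laurentBaseChange L (modularFunctionFieldFull (M * q))).comp s = s.comp w := by
    refine hom_ext_alpha_beta hq (fun c => ?_) (fun y => ?_) (fun y => ?_)
    · simp only [RingHom.comp_apply, hs', RingHom.coe_coe]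
      rw [smul_algebraMap', AlgEquiv.commutes, AlgEquiv.commutes, smul_algebraMap']
    · simp only [RingHom.comp_apply, hs', RingHom.coe_coe]
      rw [← galois_alpha, hw.alpha, hw.alpha, galois_beta]
    · simp only [RingHom.comp_apply, hs', RingHom.coe_coe]
      rw [← galois_beta, hw.beta, hw.beta, galois_alpha]
  exact RingHom.congr_fun h x

end AL

section Red

variable {L : Type*} [Field L] [Algebra ℚ L] {k : Type*} [Field k] {A : ValuationSubring L}
  {π : A →+* k} {M q : ℕ} [NeZero M] [NeZero q] [ExpChar k q]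
  {w : laurentBaseChange L (modularFunctionFieldFull (M * q)) ≃ₐ[L]
      laurentBaseChange L (modularFunctionFieldFull (M * q))}

/-- Equivariance of the first reduction. -/
theorem redOne_galois (S : Setup π w) {σ : L ≃ₐ[ℚ] L} {τ : k ≃+* k} (hτ : IsResidual π σ τ)
    {f : laurentBaseChange L (modularFunctionFieldFull (M * q))}
    {u : modularFunctionFieldFullC k M} (h : (redOne S).Red f u) :
    (redOne S).Red (arithmeticGalois (modularFunctionFieldFull (M * q)) σ • f)
      (coeffSemi M τ • u) := by
  rw [redOne_red] at h ⊢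
  exact gred_galois hτ h

/-- Equivariance of the second reduction. -/
theorem redTwo_galois (hq : q.Prime) (S : Setup π w) {σ : L ≃ₐ[ℚ] L} {τ : k ≃+* k}
    (hτ : IsResidual π σ τ) {f : laurentBaseChange L (modularFunctionFieldFull (M * q))}
    {u : modularFunctionFieldFullC k M} (h : (redTwo S).Red f u) :
    (redTwo S).Red (arithmeticGalois (modularFunctionFieldFull (M * q)) σ • f)
      (coeffSemi M τ • u) := by
  rw [redTwo_red] at h ⊢
  rw [galois_w hq S.al]
  exact gred_galois hτ h

theorem smul_jL (N : ℕ) (σ : L ≃ₐ[ℚ] L) :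
    arithmeticGalois (modularFunctionFieldFull N) σ • (Fermat.Agent.JRED.jL L N) =
      Fermat.Agent.JRED.jL L N := by
  refine Subtype.ext ?_
  rw [coe_arithmeticGalois_smul]
  exact coeffMap_coeffEmb σ jq

end Red

end Fermat.Agent.DR.ModGal
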