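import Fermat.Agent.DR.ModGal.Galois
import Fermat.Agent.DR.Mod.HeckeRed
import Fermat.Agent.Jan.GaloisHecke

set_option autoImplicit false
set_option linter.unusedSectionVars false
set_option linter.style.haveILetI false

/-!
# The Atkin–Lehner involution on `J₀(Mq)`

For `q` prime, `q ∤ M`:
* `isAL_unique`, `isAL_involutive`, `setup_of_isAL`: the Atkin–Lehner automorphism `w` of `F_{Mq}`
  is unique, an involution, and gives a `Setup` for every `A`, `π`;
* `wJ w : J₀(Mq) →+ J₀(Mq)`, `wJ_wJ`, `wJ_galois`, `wJ_hecke` (`ℓ ≠ q`), `wJ_heckeAway`;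
* `exists_W`: the package, independent of `A`.
-/

noncomputable section

open AlgebraicCurve ModularCurve IntermediateField AlgebraicCurve.SemilinearAut
open Fermat.Agent.JRED Fermat.Agent.DR.Mod
open Fermat.Agent.Jan.GaloisHecke

namespace Fermat.Agent.DR.ModGal

section Unique

variable {L : Type} [Field L] [Algebra ℚ L] {M q : ℕ} [NeZero M] [NeZero q]

/-- The Atkin–Lehner automorphism is unique. -/
theorem isAL_unique (hq : q.Prime)
    {w w' : laurentBaseChange L (modularFunctionFieldFull (M * q)) ≃ₐ[L]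
      laurentBaseChange L (modularFunctionFieldFull (M * q))} (hw : IsAL w) (hw' : IsAL w') :
    w = w' := by
  have key : w.toAlgHom = w'.toAlgHom := by
    apply algHom_ext_alpha_beta hq
    · intro x
      rw [toAlgHom_apply', toAlgHom_apply', hw.alpha, hw'.alpha]
    · intro x
      rw [toAlgHom_apply', toAlgHom_apply', hw.beta, hw'.beta]
  ext x
  have := congrArg (fun φ : laurentBaseChange L (modularFunctionFieldFull (M * q)) →ₐ[L]
    laurentBaseChange L (modularFunctionFieldFull (M * q)) => φ x) key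
  simp only [toAlgHom_apply'] at this
  rw [this]

theorem isAL_involutive (hq : q.Prime)
    {w : laurentBaseChange L (modularFunctionFieldFull (M * q)) ≃ₐ[L]
      laurentBaseChange L (modularFunctionFieldFull (M * q))} (hw : IsAL w)
    (x : laurentBaseChange L (modularFunctionFieldFull (M * q))) : w (w x) = x := by
  have key : (w.trans w).toAlgHom = (AlgEquiv.refl : _ ≃ₐ[L] _).toAlgHom := by
    apply algHom_ext_alpha_beta hq
    · intro x
      show w (w _) = _
      rw [hw.alpha, hw.beta]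
      rfl
    · intro x
      show w (w _) = _
      rw [hw.beta, hw.alpha]
      rfl
  exact congrArg (fun φ : laurentBaseChange L (modularFunctionFieldFull (M * q)) →ₐ[L]
    laurentBaseChange L (modularFunctionFieldFull (M * q)) => φ x) key

/-- The Atkin–Lehner automorphism exists. -/
theorem exists_isAL (L : Type) [Field L] [Algebra ℚ L] [IsAlgClosed L] (M q : ℕ) [NeZero M] [NeZero q]
    (hq : q.Prime) (hqM : ¬ q ∣ M) :
    ∃ w : laurentBaseChange L (modularFunctionFieldFull (M * q)) ≃ₐ[L]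
      laurentBaseChange L (modularFunctionFieldFull (M * q)), IsAL w := by
  have : Fact q.Prime := ⟨hq⟩
  obtain ⟨w, -, h1, h2⟩ := Fermat.Agent.JRED.AL.exists_wBar L M q hqM
  exact ⟨w, h1, h2⟩

/-- An Atkin–Lehner automorphism gives a `Setup` for every `A`, `π`. -/
theorem setup_of_isAL [IsAlgClosed L] {k : Type} [Field k] {A : ValuationSubring L} {π : A →+* k}
    (hπ : Function.Surjective π) [CharP k q] (hq : q.Prime) (hqM : ¬ q ∣ M)
    {w : laurentBaseChange L (modularFunctionFieldFull (M * q)) ≃ₐ[L]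
      laurentBaseChange L (modularFunctionFieldFull (M * q))} (hw : IsAL w) : Setup π w := by
  refine ⟨hπ, fun c => ?_, hq.two_le, hw,
    degInput L k M q hq hqM (natCast_ne_zero_of_not_dvd k q M hqM)⟩
  obtain ⟨s, hs⟩ := IsAlgClosed.exists_pow_nat_eq c two_pos
  exact ⟨s, by rw [← hs, sq]⟩

end Unique

local notation "Qbar" => AlgebraicClosure ℚ
local notation "Γℚ" => (AlgebraicClosure ℚ ≃ₐ[ℚ] AlgebraicClosure ℚ)

section WJ

variable {M q : ℕ} [NeZero M] [NeZero q]

/-- The automorphism of `J₀(Mq)` induced by `w`. -/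
def wJ (w : laurentBaseChange Qbar (modularFunctionFieldFull (M * q)) ≃ₐ[Qbar]
      laurentBaseChange Qbar (modularFunctionFieldFull (M * q))) :
    JZero (M * q) →+ JZero (M * q) where
  toFun x := (SemilinearAut.ofAlgAut w • (x : Pic0 Qbar (modularFunctionFieldBar (M * q))) :
      Pic0 Qbar (modularFunctionFieldBar (M * q)))
  map_zero' := smul_zero _
  map_add' x y := smul_add (ofAlgAut w) x y

variable {w : laurentBaseChange Qbar (modularFunctionFieldFull (M * q)) ≃ₐ[Qbar]
      laurentBaseChange Qbar (modularFunctionFieldFull (M * q))}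

theorem wJ_apply (x : JZero (M * q)) : wJ w x =
    (SemilinearAut.ofAlgAut w • (x : Pic0 Qbar (modularFunctionFieldBar (M * q))) :
      Pic0 Qbar (modularFunctionFieldBar (M * q))) := rfl

/-- `W` is an involution. -/
theorem wJ_wJ (hq : q.Prime) (hw : IsAL w) (x : JZero (M * q)) : wJ w (wJ w x) = x := by
  rw [wJ_apply, wJ_apply, ← mul_smul]
  have : (ofAlgAut w * ofAlgAut w : SemilinearAut Qbar (modularFunctionFieldBar (M * q))) = 1 := by
    rw [← map_mul, ← map_one ofAlgAut]
    congr 1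
    exact AlgEquiv.ext fun y => isAL_involutive hq hw y
  rw [this, one_smul]

theorem wJ_bijective (hq : q.Prime) (hw : IsAL w) : Function.Bijective (wJ w) :=
  (Function.Involutive.bijective (wJ_wJ hq hw))

/-- `W` is defined over `ℚ`. -/
theorem wJ_galois (hq : q.Prime) (hw : IsAL w) (g : Γℚ) (x : JZero (M * q)) :
    wJ w (g • x) = g • wJ w x := by
  rw [wJ_apply, wJ_apply, galois_smul_pic0_def, galois_smul_pic0_def, ← mul_smul, ← mul_smul]
  congr 1
  refine Subtype.ext (Prod.ext (RingEquiv.ext fun y => ?_) ?_)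
  · exact galois_w hq hw g y
  · exact RingEquiv.ext fun c => rfl

/-- `W` commutes with `T_ℓ`, `ℓ ≠ q` (including `ℓ ∣ M`). -/
theorem wJ_heckeAlong (hq : q.Prime) (hqM : ¬ q ∣ M) (hw : IsAL w) {ℓ : ℕ} [NeZero ℓ]
    (hqℓ : ¬ q ∣ ℓ) (x : JZero (M * q)) :
    wJ w (heckeOperatorAlong Qbar (M * q) ℓ x) = heckeOperatorAlong Qbar (M * q) ℓ (wJ w x) := by
  obtain ⟨w', hw'⟩ := exists_isAL Qbar (M * ℓ) q hq (by
    rw [hq.dvd_mul]; rintro (h | h); exacts [hqM h, hqℓ h])
  obtain ⟨hα, hβ, hP, hfin, hFI, hN⟩ :=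
    Fermat.Agent.Jan.DegreeWiring.heckeInputsAlong' Qbar (M * q) ℓ
  rw [heckeOperatorAlong_eq hα hβ hFI hfin hN]
  set g' : SemilinearAut Qbar (laurentBaseChange Qbar (modularFunctionFieldFull (M * q * ℓ))) :=
    ofAlgAut (((swapEquiv Qbar M q ℓ).trans w').trans (swapEquiv Qbar M q ℓ).symm) with hg'
  have e : ∀ y, g' • y = (swapEquiv Qbar M q ℓ).symm (w' (swapEquiv Qbar M q ℓ y)) := fun y => rfl
  refine (pic0_correspondence_smul (heckeBetaBar Qbar (M * q) ℓ) hβ (heckeAlphaBar Qbar (M * q) ℓ)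
    hα hFI hfin hN (g := ofAlgAut w) (g' := g') ?_ ?_ x).symm
  · intro y
    rw [e]
    have h2 := al_beta (ℓ := ℓ) hq hw hw' y
    show (swapEquiv Qbar M q ℓ).symm (w' (swapEquiv Qbar M q ℓ (heckeBetaBar Qbar (M * q) ℓ y))) =
      heckeBetaBar Qbar (M * q) ℓ (w y)
    rw [h2, AlgEquiv.symm_apply_apply]
  · intro y
    rw [e]
    have h2 := al_alpha (ℓ := ℓ) hq hw hw' y
    show (swapEquiv Qbar M q ℓ).symm (w' (swapEquiv Qbar M q ℓ (heckeAlphaBar Qbar (M * q) ℓ y))) =
      heckeAlphaBar Qbar (M * q) ℓ (w y)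
    rw [h2, AlgEquiv.symm_apply_apply]

theorem wJ_heckeGen (hq : q.Prime) (hqM : ¬ q ∣ M) (hw : IsAL w) {ℓ : Nat.Primes}
    (hℓ : (ℓ : ℕ) ≠ q) (x : JZero (M * q)) :
    letI := heckeModuleBar (M * q)
    wJ w (heckeGen ℓ • x) = heckeGen ℓ • wJ w x := by
  letI := heckeModuleBar (M * q)
  haveI : NeZero (ℓ : ℕ) := ⟨ℓ.2.ne_zero⟩
  rw [heckeModuleBar_heckeGen_smul (Fermat.Agent.JAN.PsiDegree.heckeOperatorsCommuteBar (M * q)),
    heckeModuleBar_heckeGen_smul (Fermat.Agent.JAN.PsiDegree.heckeOperatorsCommuteBar (M * q)),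
    heckeOperatorBar_apply, heckeOperatorBar_apply]
  exact wJ_heckeAlong hq hqM hw
    (fun h => hℓ ((Nat.prime_dvd_prime_iff_eq hq ℓ.2).mp h).symm) x

/-- `W` commutes with the Hecke algebra away from `q`. -/
theorem wJ_heckeAway (hq : q.Prime) (hqM : ¬ q ∣ M) (hw : IsAL w) {t : HeckeAlg}
    (ht : t ∈ heckeAway q) (x : JZero (M * q)) :
    letI := heckeModuleBar (M * q)
    wJ w (t • x) = t • wJ w x := by
  letI := heckeModuleBar (M * q)
  induction ht using Algebra.adjoin_induction generalizing x with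
  | mem t ht =>
    obtain ⟨ℓ, hℓ, rfl⟩ := ht
    exact wJ_heckeGen hq hqM hw hℓ x
  | algebraMap n => rw [algebraMap_smul, algebraMap_smul, map_zsmul]
  | add t t' _ _ ih ih' => rw [add_smul, map_add, ih, ih', add_smul]
  | mul t t' _ _ ih ih' => rw [mul_smul, ih, ih', mul_smul]

end WJ

/-- **The Atkin–Lehner involution on `J₀(Mq)`**, independent of places. -/
theorem exists_W (M q : ℕ) [NeZero M] [NeZero q] (hq : q.Prime) (hqM : ¬ q ∣ M) :
    letI := heckeModuleBar (M * q)
    ∃ w : laurentBaseChange Qbar (modularFunctionFieldFull (M * q)) ≃ₐ[Qbar]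
      laurentBaseChange Qbar (modularFunctionFieldFull (M * q)),
      IsAL w ∧ (∀ f, w (w f) = f) ∧
      (∀ x : JZero (M * q), wJ w (wJ w x) = x) ∧
      (∀ (g : Γℚ) (x : JZero (M * q)), wJ w (g • x) = g • wJ w x) ∧
      (∀ t ∈ heckeAway q, ∀ x : JZero (M * q), wJ w (t • x) = t • wJ w x) ∧
      ∀ {k : Type} [Field k] [CharP k q] {A : ValuationSubring Qbar} {π : A →+* k},
        Function.Surjective π → Setup π w := by
  obtain ⟨w, hw⟩ := exists_isAL Qbar M q hq hqM
  exact ⟨w, hw, isAL_involutive hq hw, wJ_wJ hq hw, wJ_galois hq hw,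
    fun t ht x => wJ_heckeAway hq hqM hw ht x,
    fun {k} _ _ {A} {π} hπ => setup_of_isAL hπ hq hqM hw⟩

end Fermat.Agent.DR.ModGal
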