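import Fermat.Agent.DR.ModGal.FrobCompat
import Fermat.Agent.DR.Nodal.Swap

set_option autoImplicit false
set_option linter.unusedSectionVars false

/-!
# `φ ∘ w_q` exchanges the two components of `X₀(Mq)`

Consequence: `φ (w_q x) = -q x` on the toric part of `J₀(Mq)[m]`.
-/

noncomputable section

open AlgebraicCurve ModularCurve IntermediateField Fermat.Agent.RR
open Fermat.Agent.JRED Fermat.Agent.DR.PairOrtho Fermat.Agent.DR.PairDegree Fermat.Agent.DR.Mod
  Fermat.Agent.DR.Mod2
open Fermat.Agent.JRED.ESGalois Fermat.Agent.JRED.ESSemi Fermat.Agent.JAN.AnFun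

namespace Fermat.Agent.DR.ModGal

local notation "Qbar" => AlgebraicClosure ℚ
local notation "Γℚ" => (AlgebraicClosure ℚ ≃ₐ[ℚ] AlgebraicClosure ℚ)

variable {A : ValuationSubring Qbar} {k : Type} [Field k] {π : A →+* k}
  {M q : ℕ} [NeZero M] [hq : Fact q.Prime] [CharP k q] [ExpChar k q] [PerfectRing k q]
  {w : laurentBaseChange Qbar (modularFunctionFieldFull (M * q)) ≃ₐ[Qbar]
      laurentBaseChange Qbar (modularFunctionFieldFull (M * q))}
  [FunctionField Qbar (modularFunctionFieldBar (M * q))]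
  [FunctionField Qbar (modularFunctionFieldBar M)]
  [FunctionField k (modularFunctionFieldFullC k M)] [IsAlgClosed k]

theorem w_jL (S : Setup π w) : w (Fermat.Agent.JRED.jL Qbar (M * q)) =
    heckeBetaBar Qbar M q (jBar M) := by
  rw [← alpha_jBar, S.al.alpha]

/-- The semilinear automorphism `σ ∘ w` exchanges the components, `σ` a Frobenius element. -/
theorem isSwap_frob (S : Setup π w) (hdeg : DegreeInput M k) (hgood : GoodReduction M k)
    {X : NodalDatum Qbar (modularFunctionFieldBar (M * q)) k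
      (modularFunctionFieldFullC k M) (modularFunctionFieldFullC k M) A π}
    (h1 : X.R₁ = redOne S) (h2 : X.R₂ = redTwo S)
    (hx : ∃ a : A, X.x = Fermat.Agent.JRED.jL Qbar (M * q) - algebraMap Qbar _ a ∧
      X.x₁ = jRed k M - algebraMap k _ (π a) ∧
      X.x₂ = jRed k M ^ q - algebraMap k _ (π a))
    (hw : ∀ f, w (w f) = f) {σ : Γℚ} (hσ : A.IsFrobeniusAt σ q) :
    IsSwap X (arithmeticGalois (modularFunctionFieldFull (M * q)) σ * SemilinearAut.ofAlgAut w)
        (coeffSemi M (frobeniusEquiv k q)) (coeffSemi M (frobeniusEquiv k q)) ∧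
      (∀ s ∈ X.nodes, coeffSemi M (frobeniusEquiv k q) • s.2 = s.1 ∧
        coeffSemi M (frobeniusEquiv k q) • s.1 = s.2) ∧
      ∀ c : k, SemilinearAut.baseAut (coeffSemi M (frobeniusEquiv k q)) c = c ^ q := by
  have hres : IsResidual π σ (frobeniusEquiv k q) :=
    isResidual_of_frobenius S.surj hσ _ (fun x => rfl)
  have hfix : ∀ s ∈ X.nodes, coeffSemi M (frobeniusEquiv k q) • s.2 = s.1 ∧
        coeffSemi M (frobeniusEquiv k q) • s.1 = s.2 := by
    intro s hs
    obtain ⟨e1, e2⟩ := node_frob S hdeg hgood h1 h2 hx hs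
    exact ⟨e1.symm, e2.symm⟩
  have hg : ∀ f, (arithmeticGalois (modularFunctionFieldFull (M * q)) σ *
      SemilinearAut.ofAlgAut w) • f =
        arithmeticGalois (modularFunctionFieldFull (M * q)) σ • w f := by
    intro f
    rw [mul_smul]
    rfl
  refine ⟨⟨fun f u h => ?_, fun f u h => ?_, rfl, ?_, fun s hs => ?_⟩, hfix, fun c => rfl⟩
  · rw [h1, redOne_red] at h
    rw [h2, redTwo_red, hg, galois_w hq.out S.al, hw]
    exact gred_galois hres h
  · rw [h2, redTwo_red] at h
    rw [h1, redOne_red, hg]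
    exact gred_galois hres h
  · obtain ⟨a, hxa, -, -⟩ := hx
    refine ⟨q, fun P => ?_⟩
    rw [smul_polesOf, hg, hxa, map_sub, smul_sub, Nodes.polesOf_sub_algebraMap]
    rw [AlgEquiv.commutes, smul_algebraMap', Nodes.polesOf_sub_algebraMap, w_jL S]
    have e3 : arithmeticGalois (modularFunctionFieldFull (M * q)) σ •
        heckeBetaBar Qbar M q (jBar M) = heckeBetaBar Qbar M q (jBar M) := by
      rw [← galois_beta]
      exact congrArg (heckeBetaBar Qbar M q) (smul_jL (L := Qbar) M σ)
    rw [e3]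
    have h5 := (modularDegPair S hdeg hgood).βx_mem
    have h6 : (modularDegPair S hdeg hgood).α (modularDegPair S hdeg hgood).x =
      Fermat.Agent.JRED.jL (AlgebraicClosure ℚ) (M * q) := alpha_jBar
    rw [h6] at h5
    have h7 : (modularDegPair S hdeg hgood).β (modularDegPair S hdeg hgood).x =
      heckeBetaBar Qbar M q (jBar M) := rfl
    rw [h7] at h5
    have h8 : (modularDegPair S hdeg hgood).q = q := rfl
    rw [h8, mem_riemannRochSpace_iff] at h5
    have hpos : 0 ≤ (q • polesOf (K := Qbar) (Fermat.Agent.JRED.jL Qbar (M * q))) P := by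
      have := polesOf_nonneg (K := Qbar) (Fermat.Agent.JRED.jL Qbar (M * q)) P
      rw [Finsupp.coe_zero, Pi.zero_apply] at this
      rw [Finsupp.smul_apply]
      positivity
    rw [polesOf_apply]
    rcases h5 P with h | h
    · rw [h, Place.ord_zero]
      simpa using hpos
    · exact max_le (by linarith) hpos
  · obtain ⟨e1, e2⟩ := hfix s hs
    rw [e1, e2]
    exact hs

/-- **`φ w_q = -q` on the toric part.** -/
theorem frob_w_torus (S : Setup π w) (hdeg : DegreeInput M k) (hgood : GoodReduction M k)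
    {X : NodalDatum Qbar (modularFunctionFieldBar (M * q)) k
      (modularFunctionFieldFullC k M) (modularFunctionFieldFullC k M) A π}
    (h1 : X.R₁ = redOne S) (h2 : X.R₂ = redTwo S)
    (hx : ∃ a : A, X.x = Fermat.Agent.JRED.jL Qbar (M * q) - algebraMap Qbar _ a ∧
      X.x₁ = jRed k M - algebraMap k _ (π a) ∧
      X.x₂ = jRed k M ^ q - algebraMap k _ (π a))
    (hw : ∀ f, w (w f) = f) {σ : Γℚ} (hσ : A.IsFrobeniusAt σ q) {m : ℕ} (hmk : (m : k) ≠ 0)
    {x : JZero (M * q)} (h : InTorus X m x) :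
    σ • ((SemilinearAut.ofAlgAut w • (x : Pic0 Qbar (modularFunctionFieldBar (M * q))) :
      JZero (M * q))) = -(q • x) := by
  obtain ⟨C, hfix, hN⟩ := isSwap_frob S hdeg hgood h1 h2 hx hw hσ
  have h3 := C.smul_torus S.surj hmk (fun s hs => (hfix s hs).1) (fun s hs => (hfix s hs).2) hN h
  rw [mul_smul] at h3
  exact h3

end Fermat.Agent.DR.ModGal
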