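import Fermat.Agent.DR.ModGal.Galois
import Fermat.Agent.DR.Nodes.ToNodal
import Fermat.Agent.DR.S34Algebra

set_option autoImplicit false

/-!
# `IsCompat` for the arithmetic Galois action, and the unipotent input

For a `NodalDatum` of `F_{Mq}` whose two reductions are `redOne`, `redTwo` and with `x = j - a`, the
elements of the decomposition group are compatible (`isCompat_of_nodes`), those of inertia without
further condition (`isCompat_inertia`).  Consequence: inertia acts unipotently on the prime-to-`q`
torsion of `J₀(Mq)`.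
-/

noncomputable section

open AlgebraicCurve ModularCurve IntermediateField Fermat.Agent.RR
open Fermat.Agent.JRED Fermat.Agent.DR.PairOrtho Fermat.Agent.DR.PairDegree Fermat.Agent.DR.Mod
open Fermat.Agent.JRED.ESGalois Fermat.Agent.JRED.ESSemi Fermat.Agent.JAN.AnFun

namespace Fermat.Agent.DR.ModGal

section Poles

variable {K F : Type*} [Field K] [Field F] [Algebra K F] [HasPrincipalDivisors K F]

theorem smul_polesOf (g : SemilinearAut K F) (x : F) :
    g • polesOf (K := K) x = polesOf (K := K) (g • x) := by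
  ext P
  rw [SemilinearAut.divisor_smul_apply, polesOf_apply, polesOf_apply]
  have h1 := SemilinearAut.ord_smul g (g⁻¹ • P) x
  rw [smul_inv_smul] at h1
  rw [h1]

end Poles

section Compat

variable {L : Type*} [Field L] [Algebra ℚ L] {k : Type*} [Field k] {A : ValuationSubring L}
  {π : A →+* k} {M q : ℕ} [NeZero M] [NeZero q] [ExpChar k q]
  {w : laurentBaseChange L (modularFunctionFieldFull (M * q)) ≃ₐ[L]
      laurentBaseChange L (modularFunctionFieldFull (M * q))}
  [IsAlgClosed L] [IsAlgClosed k]
  [RR.FunctionField L (laurentBaseChange L (modularFunctionFieldFull (M * q)))]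
  [RR.FunctionField k (modularFunctionFieldFullC k M)]

/-- Compatibility of the Galois action of the decomposition group, given stability of the nodes. -/
theorem isCompat_of_nodes (hq : q.Prime) (S : Setup π w)
    (X : NodalDatum L (laurentBaseChange L (modularFunctionFieldFull (M * q))) k
      (modularFunctionFieldFullC k M) (modularFunctionFieldFullC k M) A π)
    (h1 : X.R₁ = redOne S) (h2 : X.R₂ = redTwo S)
    {a : L} (hx : X.x = Fermat.Agent.JRED.jL L (M * q) - algebraMap L _ a)
    {σ : L ≃ₐ[ℚ] L} {τ : k ≃+* k} (hτ : IsResidual π σ τ)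
    (hnodes : ∀ s ∈ X.nodes, (coeffSemi M τ • s.1, coeffSemi M τ • s.2) ∈ X.nodes) :
    IsCompat X (arithmeticGalois (modularFunctionFieldFull (M * q)) σ)
      (coeffSemi M τ) (coeffSemi M τ) where
  red₁ f u h := by
    rw [h1] at h ⊢
    exact redOne_galois S hτ h
  red₂ f u h := by
    rw [h2] at h ⊢
    exact redTwo_galois hq S hτ h
  base := rfl
  poles := by
    rw [smul_polesOf, hx, smul_sub, smul_jL, smul_algebraMap', Nodes.polesOf_sub_algebraMap,
      Nodes.polesOf_sub_algebraMap]
  nodes := hnodes

/-- Compatibility of inertia. -/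
theorem isCompat_inertia (hq : q.Prime) (S : Setup π w)
    (X : NodalDatum L (laurentBaseChange L (modularFunctionFieldFull (M * q))) k
      (modularFunctionFieldFullC k M) (modularFunctionFieldFullC k M) A π)
    (h1 : X.R₁ = redOne S) (h2 : X.R₂ = redTwo S)
    {a : L} (hx : X.x = Fermat.Agent.JRED.jL L (M * q) - algebraMap L _ a)
    {σ : L ≃ₐ[ℚ] L} (hτ : IsResidual π σ 1) :
    IsCompat X (arithmeticGalois (modularFunctionFieldFull (M * q)) σ) 1 1 := by
  have h := isCompat_of_nodes hq S X h1 h2 hx hτ (fun s hs => by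
    rw [map_one, one_smul, one_smul]
    exact hs)
  rwa [map_one] at h

end Compat

section Unipotent

local notation "Qbar" => AlgebraicClosure ℚ
local notation "Γℚ" => (AlgebraicClosure ℚ ≃ₐ[ℚ] AlgebraicClosure ℚ)

/-- A nodal reduction of `X₀(N)` at `A`, compatible with the action of inertia. -/
def InertialNodal (N q : ℕ) [RR.FunctionField Qbar (modularFunctionFieldBar N)]
    (A : ValuationSubring Qbar) : Prop :=
  ∃ (k F₁ F₂ : Type) (_ : Field k) (_ : IsAlgClosed k) (_ : CharP k q) (_ : Field F₁) (_ : Field F₂)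
    (_ : Algebra k F₁) (_ : Algebra k F₂) (_ : RR.FunctionField k F₁) (_ : RR.FunctionField k F₂)
    (π : A →+* k) (X : NodalDatum Qbar (modularFunctionFieldBar N) k F₁ F₂ A π),
    Function.Surjective π ∧ ∀ σ ∈ A.inertiaSubgroupIn ℚ,
      IsCompat X (arithmeticGalois (modularFunctionFieldFull N) σ) 1 1

/-- **Inertia acts unipotently on `J₀(N)[p^∞]`** as soon as there is a nodal reduction. -/
theorem unipotentInput_of_nodal {N q p : ℕ} [RR.FunctionField Qbar (modularFunctionFieldBar N)]
    (hq : q.Prime) (hp : p.Prime) (hqp : q ≠ p)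
    (h : ∀ A : ValuationSubring Qbar, A.LiesOverPrime q → InertialNodal N q A) :
    S34Algebra.UnipotentInput p q (JZero N) := by
  intro A hA τ hτ x hx
  obtain ⟨n, hn⟩ := hx
  obtain ⟨k, F₁, F₂, _, _, _, _, _, _, _, _, _, π, X, hπ, hC⟩ := h A hA
  have hmk : ((p ^ n : ℕ) : k) ≠ 0 := by
    intro h0
    rw [CharP.cast_eq_zero_iff k q] at h0
    exact hqp ((Nat.prime_dvd_prime_iff_eq hq hp).mp (hq.dvd_of_dvd_pow h0))
  have h1 := (hC τ hτ).inertia_unipotent hπ hmk hn
  change τ • (τ • x - x) = τ • x - x at h1
  rw [smul_sub] at h1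
  rw [two_smul, ← sub_eq_zero.mpr h1]
  abel

end Unipotent

end Fermat.Agent.DR.ModGal
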