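import Fermat.Agent.DR.Mod.Main
import Fermat.Agent.DR.Nodal.Galois

set_option autoImplicit false
set_option linter.unusedSectionVars false

/-!
# Frobenius and the nodes

* `exists_regAlg_val`: functions regular away from the poles of `x` with prescribed values.
* `node_frob`: every node `s` satisfies `s.1 = φ s.2`, `s.2 = φ s.1`; so `φ²` fixes the nodes.
* `mem_nodes_of_glued`: intrinsic characterisation of the nodes; `nodes_stable`.
-/

noncomputable section

open AlgebraicCurve Fermat.Agent.RR Fermat.Agent.JRED IntermediateField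
open Fermat.Agent.DR.PairDegree Fermat.Agent.DR.PairOrtho Fermat.Agent.DR.PairShift
  Fermat.Agent.DR.Mod2 Fermat.Agent.DR.Mod

namespace Fermat.Agent.DR.ModGal

open Nodes (regAlg mem_regAlg mem_regAlg_of_mem exists_mem_of_mem_regAlg redV mem_redV WW mem_WW)

section Approx

variable {k F : Type*} [Field k] [Field F] [Algebra k F] [IsAlgClosed k] [FunctionField k F]

/-- Functions regular away from the poles of `x`, with prescribed values at finitely many places. -/
theorem exists_regAlg_val {x : F} (hx : Transcendental k x) (S : Finset (Place k F))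
    (hS : ∀ P ∈ S, 0 ≤ P.ord x) (c : Place k F → k) :
    ∃ f ∈ regAlg k x, ∀ P ∈ S, Val P f (c P) := by
  have hdeg : 1 ≤ Divisor.degree (polesOf (K := k) x) := polesOf_pos_of_transcendental hx
  obtain ⟨P₀, hP₀⟩ : ∃ P₀ : Place k F, P₀.ord x < 0 := by
    by_contra hcon
    push Not at hcon
    have h0 : polesOf (K := k) x = 0 := by
      ext P
      rw [polesOf_apply, max_eq_right (by have := hcon P; omega)]
      rfl
    rw [h0, map_zero] at hdeg
    omega
  have hP₀S : P₀ ∉ S := fun h => by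
    have := hS P₀ h
    omega
  obtain ⟨f, hf1, hf2⟩ := strong_approximation P₀ S hP₀S (fun P => algebraMap k F (c P)) 1
  have hval : ∀ P ∈ S, Val P f (c P) := by
    intro P hP
    unfold Val
    rw [adicValuation_lt_one_iff]
    rcases hf1 P hP with h | h
    · exact Or.inl h
    · right
      have h' : (1 : ℤ) ≤ P.ord (f - algebraMap k F (c P)) := h
      omega
  refine ⟨f, fun P hP => ?_, hval⟩
  by_cases hPS : P ∈ S
  · exact Nodes.Val.mem (hval P hPS)
  · have hne : P ≠ P₀ := by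
      rintro rfl
      have := Fermat.FF.ord_nonneg_of_mem P hP
      omega
    have h := hf2 P hPS hne
    rcases eq_or_ne f 0 with rfl | hf0
    · exact zero_mem _
    · exact (Fermat.FF.mem_iff_ord P hf0).mpr h

/-- A place is determined by the values of the functions in `regAlg`. -/
theorem place_eq_of_val {x : F} (hx : Transcendental k x) {P P' : Place k F} (hP : 0 ≤ P.ord x)
    (hP' : 0 ≤ P'.ord x) (h : ∀ t ∈ regAlg k x, ∀ c : k, Val P t c → Val P' t c) : P = P' := by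
  classical
  by_contra hne
  obtain ⟨f, hf, hval⟩ := exists_regAlg_val hx {P, P'} (by
    intro Q hQ
    rw [Finset.mem_insert, Finset.mem_singleton] at hQ
    rcases hQ with rfl | rfl
    · exact hP
    · exact hP') (fun Q => if Q = P then 0 else 1)
  have h1 := hval P (by simp)
  have h2 := hval P' (by simp)
  rw [if_pos rfl] at h1
  rw [if_neg (Ne.symm hne)] at h2
  exact zero_ne_one ((h f hf 0 h1).unique h2)

theorem exists_val_of_mem_regAlg {x t : F} (ht : t ∈ regAlg k x) {P : Place k F}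
    (hP : x ∈ P.toValuationSubring) : ∃ c : k, Val P t c := by
  have h1 : t ∈ P.toValuationSubring := ht P hP
  exact Val.exists_of_ord (Fermat.FF.ord_nonneg_of_mem P h1)

end Approx

section Frob

variable {K F G k Gb : Type*} [Field K] [Field F] [Algebra K F] [Field G] [Algebra K G] [Field k]
  [Field Gb] [Algebra k Gb] [FunctionField K F] [FunctionField K G]
  [FunctionField k Gb] {A : ValuationSubring K} {π : A →+* k} [IsAlgClosed K] [IsAlgClosed k]

variable (D : DegPair K F G k Gb A π) (X : NodalDatum K F k Gb Gb A π)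

/-- The compatibility between a `DegPair` and a `NodalDatum`. -/
structure Adapted : Prop where
  eq₁ : X.R₁ = D.R₁
  eq₂ : X.R₂ = D.R₂
  transcendental : Transcendental k D.xb
  shift : ∃ a : A, X.x = D.α D.x - algebraMap K F a ∧ X.x₁ = D.xb - algebraMap k Gb (π a) ∧
        X.x₂ = D.xb ^ D.q - algebraMap k Gb (π a)

variable {D X} (H : Adapted D X)

include H in
theorem Adapted.poles : polesOf (K := K) X.x = polesOf (K := K) (D.α D.x) := by
  obtain ⟨a, h, -, -⟩ := H.shift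
  rw [h, Nodes.polesOf_sub_algebraMap]

include H in
theorem Adapted.mem₁ {s : Place k Gb × Place k Gb} (hs : s ∈ X.nodes) :
    D.xb ∈ s.1.toValuationSubring := by
  obtain ⟨a, -, h, -⟩ := H.shift
  have h0 := X.ord_x₁ s hs
  have hne : X.x₁ ≠ 0 := fun h0 => X.transcendental₁ (h0 ▸ isAlgebraic_zero)
  have h1 : X.x₁ ∈ s.1.toValuationSubring := (Fermat.FF.mem_iff_ord _ hne).mpr h0.ge
  rw [h, Nodes.mem_sub_algebraMap_iff] at h1
  exact h1

include H in
theorem Adapted.mem₂ {s : Place k Gb × Place k Gb} (hs : s ∈ X.nodes) :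
    D.xb ∈ s.2.toValuationSubring := by
  obtain ⟨a, -, -, h⟩ := H.shift
  have hq0 : D.q ≠ 0 := by have := D.two_le; omega
  have h0 := X.ord_x₂ s hs
  have hne : X.x₂ ≠ 0 := fun h0 => X.transcendental₂ (h0 ▸ isAlgebraic_zero)
  have h1 : X.x₂ ∈ s.2.toValuationSubring := (Fermat.FF.mem_iff_ord _ hne).mpr h0.ge
  rw [h, Nodes.mem_sub_algebraMap_iff, pow_mem_place_iff hq0] at h1
  exact h1

include H in
theorem Adapted.glue_α {t : Gb} (ht : t ∈ regAlg k D.xb) {s : Place k Gb × Place k Gb}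
    (hs : s ∈ X.nodes) : ∃ c, Val s.1 t c ∧ Val s.2 (D.Φ t) c := by
  obtain ⟨n, f, hf, hft, hα, hβ⟩ := D.exists_lift_regAlg ht
  refine X.glue n (D.α f) (t, D.Φ t) ?_ ?_ s hs
  · rw [H.poles]; exact hα
  · rw [H.eq₁, H.eq₂]
    exact ⟨D.red₁_α hft, D.red₂_α hft⟩

include H in
theorem Adapted.glue_β {t : Gb} (ht : t ∈ regAlg k D.xb) {s : Place k Gb × Place k Gb}
    (hs : s ∈ X.nodes) : ∃ c, Val s.1 (D.Φ t) c ∧ Val s.2 t c := by
  obtain ⟨n, f, hf, hft, hα, hβ⟩ := D.exists_lift_regAlg ht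
  refine X.glue (D.q * n) (D.β f) (D.Φ t, t) ?_ ?_ s hs
  · rw [H.poles]; exact hβ
  · rw [H.eq₁, H.eq₂]
    exact ⟨D.red₁_β hft, D.red₂_β hft⟩

variable {g : SemilinearAut k Gb} (hg : ∀ c, SemilinearAut.baseAut g c = c ^ D.q)
  (hgx : g • D.xb = D.xb) (hΦ : ∀ u, D.Φ (g • u) = u ^ D.q)

theorem smul_inv_xb (hgx : g • D.xb = D.xb) : g⁻¹ • D.xb = D.xb := by
  rw [inv_smul_eq_iff, hgx]

include H hg hgx hΦ in
/-- The two branches of a node are exchanged by Frobenius. -/
theorem Adapted.node_fst {s : Place k Gb × Place k Gb} (hs : s ∈ X.nodes) : s.1 = g • s.2 := by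
  have hm1 := H.mem₁ hs
  have hm2 := H.mem₂ hs
  refine place_eq_of_val H.transcendental (Fermat.FF.ord_nonneg_of_mem _ hm1) ?_ ?_
  · have h := SemilinearAut.ord_smul g s.2 D.xb
    rw [hgx] at h
    rw [h]
    exact Fermat.FF.ord_nonneg_of_mem _ hm2
  intro t ht c hc
  set t' := g⁻¹ • t with ht'
  have htt : g • t' = t := smul_inv_smul g t
  have ht'm : t' ∈ regAlg k D.xb := smul_mem_regAlg g⁻¹ (smul_inv_xb hgx) ht
  obtain ⟨c₀, hc₀, hc₀'⟩ := H.glue_α ht hs
  obtain ⟨c'', hc''⟩ := exists_val_of_mem_regAlg ht'm hm2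
  have h1 : Val s.2 (D.Φ t) (c'' ^ D.q) := by
    rw [← htt, hΦ]
    exact hc''.pow D.q
  have h2 : c = c'' ^ D.q := (hc.unique hc₀).trans (hc₀'.unique h1)
  have h3 := val_smul g hc''
  rw [htt, hg, ← h2] at h3
  exact h3

include H hg hgx hΦ in
theorem Adapted.node_snd {s : Place k Gb × Place k Gb} (hs : s ∈ X.nodes) : s.2 = g • s.1 := by
  have hm1 := H.mem₁ hs
  have hm2 := H.mem₂ hs
  refine place_eq_of_val H.transcendental (Fermat.FF.ord_nonneg_of_mem _ hm2) ?_ ?_
  · have h := SemilinearAut.ord_smul g s.1 D.xb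
    rw [hgx] at h
    rw [h]
    exact Fermat.FF.ord_nonneg_of_mem _ hm1
  intro t ht c hc
  set t' := g⁻¹ • t with ht'
  have htt : g • t' = t := smul_inv_smul g t
  have ht'm : t' ∈ regAlg k D.xb := smul_mem_regAlg g⁻¹ (smul_inv_xb hgx) ht
  obtain ⟨c₀, hc₀', hc₀⟩ := H.glue_β ht hs
  obtain ⟨c'', hc''⟩ := exists_val_of_mem_regAlg ht'm hm1
  have h1 : Val s.1 (D.Φ t) (c'' ^ D.q) := by
    rw [← htt, hΦ]
    exact hc''.pow D.q
  have h2 : c = c'' ^ D.q := (hc.unique hc₀).trans (hc₀'.unique h1)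
  have h3 := val_smul g hc''
  rw [htt, hg, ← h2] at h3
  exact h3

include H hg hgx hΦ in
/-- `φ²` fixes both branches of every node. -/
theorem Adapted.node_fixed {s : Place k Gb × Place k Gb} (hs : s ∈ X.nodes) :
    (g * g) • s.1 = s.1 ∧ (g * g) • s.2 = s.2 := by
  have h1 := H.node_fst hg hgx hΦ hs
  have h2 := H.node_snd hg hgx hΦ hs
  constructor
  · rw [mul_smul, ← h2, ← h1]
  · rw [mul_smul, ← h1, ← h2]

end Frob

section Intrinsic

variable {K F k F₁ F₂ : Type*} [Field K] [Field F] [Algebra K F] [Field k] [Field F₁] [Field F₂]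
  [Algebra k F₁] [Algebra k F₂] [IsAlgClosed K] [IsAlgClosed k] [FunctionField K F]
  [FunctionField k F₁] [FunctionField k F₂] {A : ValuationSubring K} {π : A →+* k}

/-- Every pair glued at the nodes is a reduction. -/
def NodalComplete (X : NodalDatum K F k F₁ F₂ A π) : Prop :=
  ∃ n₀ : ℕ, ∀ n ≥ n₀, ∀ w : F₁ × F₂, w.1 ∈ riemannRochSpace (n • polesOf (K := k) X.x₁) →
    w.2 ∈ riemannRochSpace (n • polesOf (K := k) X.x₂) →
    (∀ s ∈ X.nodes, ∃ c : k, Val s.1 w.1 c ∧ Val s.2 w.2 c) →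
      ∃ h ∈ riemannRochSpace (n • polesOf (K := K) X.x), Red₂ X.R₁ X.R₂ h w

theorem mem_poles_mono' {k E : Type*} [Field k] [Field E] [Algebra k E] [FunctionField k E]
    {x v : E} {n n' : ℕ} (h : n ≤ n') (hv : v ∈ riemannRochSpace (n • polesOf (K := k) x)) :
    v ∈ riemannRochSpace (n' • polesOf (K := k) x) :=
  riemannRochSpace_mono (Nodes.nsmul_polesOf_mono x h) hv

/-- **Intrinsic characterisation of the nodes.** -/
theorem mem_nodes_of_glued {X : NodalDatum K F k F₁ F₂ A π} (hX : NodalComplete X)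
    {P₁ : Place k F₁} {P₂ : Place k F₂} (h₁ : X.x₁ ∈ P₁.toValuationSubring)
    (h₂ : X.x₂ ∈ P₂.toValuationSubring)
    (hglue : ∀ (n : ℕ) (h : F) (u : F₁ × F₂), h ∈ riemannRochSpace (n • polesOf (K := K) X.x) →
      Red₂ X.R₁ X.R₂ h u → ∃ c : k, Val P₁ u.1 c ∧ Val P₂ u.2 c) : (P₁, P₂) ∈ X.nodes := by
  classical
  obtain ⟨n₀, hn₀⟩ := hX
  have key : ∀ w : F₁ × F₂, w.1 ∈ regAlg k X.x₁ → w.2 ∈ regAlg k X.x₂ →
      (∀ s ∈ X.nodes, ∃ c : k, Val s.1 w.1 c ∧ Val s.2 w.2 c) →
      ∃ c : k, Val P₁ w.1 c ∧ Val P₂ w.2 c := by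
    intro w hw1 hw2 hs
    obtain ⟨n₁, hn₁⟩ := exists_mem_of_mem_regAlg hw1
    obtain ⟨n₂, hn₂⟩ := exists_mem_of_mem_regAlg hw2
    set n := max n₀ (max n₁ n₂) with hn
    obtain ⟨h, hh, hr⟩ := hn₀ n (le_max_left _ _) w
      (mem_poles_mono' ((le_max_left _ _).trans (le_max_right _ _)) hn₁)
      (mem_poles_mono' ((le_max_right _ _).trans (le_max_right _ _)) hn₂) hs
    exact hglue n h w hh hr
  have ho₁ : 0 ≤ P₁.ord X.x₁ := Fermat.FF.ord_nonneg_of_mem _ h₁
  have ho₂ : 0 ≤ P₂.ord X.x₂ := Fermat.FF.ord_nonneg_of_mem _ h₂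
  -- `P₁` is a branch of a node
  obtain ⟨s, hs, hsP⟩ : ∃ s ∈ X.nodes, s.1 = P₁ := by
    by_contra hcon
    push Not at hcon
    obtain ⟨f, hf, hval⟩ := exists_regAlg_val X.transcendental₁
      (insert P₁ (X.nodes.image Prod.fst)) (by
        intro Q hQ
        rw [Finset.mem_insert, Finset.mem_image] at hQ
        rcases hQ with rfl | ⟨s, hs, rfl⟩
        · exact ho₁
        · exact (X.ord_x₁ s hs).ge) (fun Q => if Q = P₁ then 1 else 0)
    obtain ⟨c, hc1, hc2⟩ := key (f, 0) hf (zero_mem _) (fun s hs => ⟨0, by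
      have := hval s.1 (Finset.mem_insert_of_mem (Finset.mem_image_of_mem _ hs))
      rwa [if_neg (hcon s hs)] at this, Val.zero⟩)
    have h3 := hval P₁ (Finset.mem_insert_self _ _)
    rw [if_pos rfl] at h3
    have h4 : (1 : k) = 0 := (h3.unique hc1).trans (hc2.unique Val.zero)
    exact one_ne_zero h4
  obtain ⟨t, ht, htP⟩ : ∃ t ∈ X.nodes, t.2 = P₂ := by
    by_contra hcon
    push Not at hcon
    obtain ⟨f, hf, hval⟩ := exists_regAlg_val X.transcendental₂
      (insert P₂ (X.nodes.image Prod.snd)) (by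
        intro Q hQ
        rw [Finset.mem_insert, Finset.mem_image] at hQ
        rcases hQ with rfl | ⟨s, hs, rfl⟩
        · exact ho₂
        · exact (X.ord_x₂ s hs).ge) (fun Q => if Q = P₂ then 1 else 0)
    obtain ⟨c, hc1, hc2⟩ := key (0, f) (zero_mem _) hf (fun s hs => ⟨0, Val.zero, by
      have := hval s.2 (Finset.mem_insert_of_mem (Finset.mem_image_of_mem _ hs))
      rwa [if_neg (hcon s hs)] at this⟩)
    have h3 := hval P₂ (Finset.mem_insert_self _ _)
    rw [if_pos rfl] at h3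
    have h4 : (1 : k) = 0 := (h3.unique hc2).trans (hc1.unique Val.zero)
    exact one_ne_zero h4
  by_cases hst : s = t
  · subst hst
    rw [← hsP, ← htP]
    exact hs
  · exfalso
    obtain ⟨f₁, hf₁, hval₁⟩ := exists_regAlg_val X.transcendental₁ (X.nodes.image Prod.fst) (by
        intro Q hQ
        rw [Finset.mem_image] at hQ
        obtain ⟨s, hs, rfl⟩ := hQ
        exact (X.ord_x₁ s hs).ge) (fun Q => if Q = s.1 then 1 else 0)
    obtain ⟨f₂, hf₂, hval₂⟩ := exists_regAlg_val X.transcendental₂ (X.nodes.image Prod.snd) (by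
        intro Q hQ
        rw [Finset.mem_image] at hQ
        obtain ⟨s, hs, rfl⟩ := hQ
        exact (X.ord_x₂ s hs).ge) (fun Q => if Q = s.2 then 1 else 0)
    obtain ⟨c, hc1, hc2⟩ := key (f₁, f₂) hf₁ hf₂ (fun r hr => by
      have h3 := hval₁ r.1 (Finset.mem_image_of_mem _ hr)
      have h4 := hval₂ r.2 (Finset.mem_image_of_mem _ hr)
      by_cases hrs : r = s
      · rw [if_pos (by rw [hrs])] at h3
        rw [if_pos (by rw [hrs])] at h4
        exact ⟨1, h3, h4⟩
      · rw [if_neg (fun h => hrs (X.injOn_fst hr hs h))] at h3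
        rw [if_neg (fun h => hrs (X.injOn_snd hr hs h))] at h4
        exact ⟨0, h3, h4⟩)
    have h5 := hval₁ s.1 (Finset.mem_image_of_mem _ hs)
    rw [if_pos rfl, hsP] at h5
    have h6 := hval₂ t.2 (Finset.mem_image_of_mem _ ht)
    rw [if_neg (fun h => hst (X.injOn_snd hs ht h.symm)), htP] at h6
    exact one_ne_zero ((h5.unique hc1).trans (hc2.unique h6))

/-- Stability of the nodes under compatible automorphisms. -/
theorem nodes_stable {X : NodalDatum K F k F₁ F₂ A π} (hX : NodalComplete X)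
    {g : SemilinearAut K F} {g₁ : SemilinearAut k F₁} {g₂ : SemilinearAut k F₂}
    (red₁ : ∀ (w : F) (u : F₁), X.R₁.Red w u → X.R₁.Red (g⁻¹ • w) (g₁⁻¹ • u))
    (red₂ : ∀ (w : F) (u : F₂), X.R₂.Red w u → X.R₂.Red (g⁻¹ • w) (g₂⁻¹ • u))
    (base : SemilinearAut.baseAut g₁ = SemilinearAut.baseAut g₂)
    (poles : g • polesOf (K := K) X.x = polesOf (K := K) X.x)
    (hx₁ : ∀ s ∈ X.nodes, X.x₁ ∈ (g₁ • s.1).toValuationSubring)
    (hx₂ : ∀ s ∈ X.nodes, X.x₂ ∈ (g₂ • s.2).toValuationSubring)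
    {s : Place k F₁ × Place k F₂} (hs : s ∈ X.nodes) : (g₁ • s.1, g₂ • s.2) ∈ X.nodes := by
  refine mem_nodes_of_glued hX (hx₁ s hs) (hx₂ s hs) fun n h u hh hu => ?_
  have h1 : g⁻¹ • h ∈ riemannRochSpace (n • polesOf (K := K) X.x) := by
    have := smul_mem_riemannRochSpace g⁻¹ hh
    rwa [smul_comm g⁻¹ n (polesOf (K := K) X.x),
      show g⁻¹ • polesOf (K := K) X.x = polesOf (K := K) X.x by
        rw [inv_smul_eq_iff, poles]] at this
  obtain ⟨c, hc1, hc2⟩ := X.glue n (g⁻¹ • h) (g₁⁻¹ • u.1, g₂⁻¹ • u.2) h1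
    ⟨red₁ _ _ hu.1, red₂ _ _ hu.2⟩ s hs
  have h3 := val_smul g₁ hc1
  have h4 := val_smul g₂ hc2
  rw [smul_inv_smul] at h3 h4
  rw [base] at h3
  exact ⟨_, h3, h4⟩

end Intrinsic

end Fermat.Agent.DR.ModGal
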