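import Fermat.Agent.DR.ModGal.Compat
import Fermat.Agent.DR.Mod.Final
import Fermat.Agent.JRED.Main

set_option autoImplicit false

/-!
# Inertia at `q ∥ N` acts unipotently on `J₀(N)[p^∞]`, `p ≠ q`
-/

noncomputable section

open AlgebraicCurve ModularCurve IntermediateField Fermat.Agent.RR
open Fermat.Agent.JRED Fermat.Agent.DR.Mod Fermat.Agent.JRED.ESGalois

namespace Fermat.Agent.DR.ModGal

local notation "Qbar" => AlgebraicClosure ℚ

theorem functionField_bar (N : ℕ) [NeZero N] :
    FunctionField Qbar (modularFunctionFieldBar N) :=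
  functionField_of_finite (transcendental_jBar N) (finrank_bar N).1

/-- The nodal reduction of `X₀(Mq)` at a place above `q ∤ M`, compatible with inertia. -/
theorem inertialNodal {M q : ℕ} [NeZero M] [NeZero q] (hq : q.Prime) (hqM : ¬ q ∣ M)
    [FunctionField Qbar (modularFunctionFieldBar (M * q))]
    (A : ValuationSubring Qbar) (hA : A.LiesOverPrime q) : InertialNodal (M * q) q A := by
  have hπ : Function.Surjective (IsLocalRing.residue A) := IsLocalRing.residue_surjective
  have i0 : Fact q.Prime := ⟨hq⟩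
  have i1 : CharP (IsLocalRing.ResidueField A) q := Mod.charP_of_liesOverPrime hπ hq hA
  have i2 : IsAlgClosed (IsLocalRing.ResidueField A) := isAlgClosed_of_surjective hπ
  have i3 : ExpChar (IsLocalRing.ResidueField A) q := ExpChar.prime hq
  have hdeg : DegreeInput M (IsLocalRing.ResidueField A) :=
    degreeInput' (NeZero.ne M) hqM
  have hgood : GoodReduction M (IsLocalRing.ResidueField A) :=
    goodReduction hπ hq (NeZero.ne M) hqM
  have i4 := hdeg.functionField
  have i5 := hdeg.functionField'
  obtain ⟨w, -, S⟩ := exists_setup_bar (M := M) (q := q) hπ hqM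
  obtain ⟨X, hX, -⟩ := exists_modular_nodalDatum hA hqM S hdeg hgood
  obtain ⟨a, ha, -, -⟩ := hX.shift
  exact ⟨IsLocalRing.ResidueField A, modularFunctionFieldFullC (IsLocalRing.ResidueField A) M,
    modularFunctionFieldFullC (IsLocalRing.ResidueField A) M, inferInstance, i2, i1, inferInstance,
    inferInstance, inferInstance, inferInstance, inferInstance, inferInstance,
    IsLocalRing.residue A, X, hπ, fun σ hσ =>
      isCompat_inertia hq S X hX.eq₁ hX.eq₂ ha (isResidual_one_of_inertia hπ hσ)⟩

/-- **Inertia at `q ∥ N` acts unipotently on `J₀(N)[p^∞]`.** -/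
theorem unipotentInput (N : ℕ) [NeZero N] {p q : ℕ} (hp : p.Prime) (hq : q.Prime) (hqp : q ≠ p)
    (hqN : q ∣ N) (hq2 : ¬ q ^ 2 ∣ N) : S34Algebra.UnipotentInput p q (JZero N) := by
  obtain ⟨M, hM⟩ := hqN
  rw [mul_comm] at hM
  subst hM
  have hM0 : M ≠ 0 := by
    rintro rfl
    exact NeZero.ne (0 * q) (zero_mul q)
  have i1 : NeZero M := ⟨hM0⟩
  have i2 : NeZero q := ⟨hq.ne_zero⟩
  have hqM : ¬ q ∣ M := by
    intro h
    apply hq2
    rw [sq, mul_comm M q]
    exact mul_dvd_mul_left q h
  have i3 : FunctionField Qbar (modularFunctionFieldBar (M * q)) := functionField_bar (M * q)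
  exact unipotentInput_of_nodal hq hp hqp fun A hA => inertialNodal hq hqM A hA

end Fermat.Agent.DR.ModGal
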