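import Fermat.Agent.DR.ModGal.Compat
import Fermat.Agent.DR.ModGal.NodeFrob
import Fermat.Agent.DR.Mod2.Glue

set_option autoImplicit false
set_option linter.unusedSectionVars false

/-!
# `IsCompat` for the whole decomposition group, in particular for Frobenius

For a `NodalDatum` adapted to the modular `DegPair` and complete (`NodalComplete`):
`isCompat_decomposition` (all of `D_A`), `isCompat_frob_sq` (no completeness needed; `φ²` fixes the
nodes), and the torsion consequences on `JZero`.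
-/

noncomputable section

open AlgebraicCurve ModularCurve IntermediateField Fermat.Agent.RR
open Fermat.Agent.JRED Fermat.Agent.DR.PairOrtho Fermat.Agent.DR.PairDegree Fermat.Agent.DR.Mod
  Fermat.Agent.DR.Mod2
open Fermat.Agent.JRED.ESGalois Fermat.Agent.JRED.ESSemi Fermat.Agent.JAN.AnFun

namespace Fermat.Agent.DR.ModGal

local notation "Qbar" => AlgebraicClosure ℚ
local notation "Γℚ" => (AlgebraicClosure ℚ ≃ₐ[ℚ] AlgebraicClosure ℚ)

section Residual

variable {L : Type*} [Field L] [Algebra ℚ L] {k : Type*} [Field k] {A : ValuationSubring L}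
  {π : A →+* k}

theorem isResidual_mul {σ σ' : L ≃ₐ[ℚ] L} {τ τ' : k ≃+* k} (h : IsResidual π σ τ)
    (h' : IsResidual π σ' τ') : IsResidual π (σ * σ') (τ * τ') := by
  obtain ⟨hσ, hτ⟩ := h
  obtain ⟨hσ', hτ'⟩ := h'
  refine ⟨mul_mem hσ hσ', fun a => ?_⟩
  have h1 : autA (mul_mem hσ hσ') a = autA hσ (autA hσ' a) := rfl
  rw [h1, ← hτ, ← hτ']
  rfl

theorem isResidual_inv {σ : L ≃ₐ[ℚ] L} {τ : k ≃+* k} (h : IsResidual π σ τ) :
    IsResidual π σ⁻¹ τ⁻¹ := by
  obtain ⟨hσ, hτ⟩ := h
  refine ⟨inv_mem hσ, fun a => ?_⟩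
  apply τ.injective
  have h1 : τ (τ⁻¹ (π a)) = π a := τ.apply_symm_apply (π a)
  rw [h1, hτ]
  congr 1
  refine Subtype.ext ?_
  rw [coe_autA, coe_autA]
  exact (σ.apply_symm_apply (a : L)).symm

end Residual

section Modular

variable {A : ValuationSubring Qbar} {k : Type} [Field k] {π : A →+* k}
  {M q : ℕ} [NeZero M] [hq : Fact q.Prime] [CharP k q] [ExpChar k q] [PerfectRing k q]
  {w : laurentBaseChange Qbar (modularFunctionFieldFull (M * q)) ≃ₐ[Qbar]
      laurentBaseChange Qbar (modularFunctionFieldFull (M * q))}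
  [FunctionField Qbar (modularFunctionFieldBar (M * q))]
  [FunctionField Qbar (modularFunctionFieldBar M)]
  [FunctionField k (modularFunctionFieldFullC k M)] [IsAlgClosed k]

theorem coeffSemi_jRed (τ : k ≃+* k) : coeffSemi M τ • jRed k M = jRed k M := by
  refine Subtype.ext ?_
  rw [coe_coeffSemi_smul]
  change coeffMap (τ : k →+* k) (jqModC k) = jqModC k
  rw [coeffMap_jqModC]

theorem PhiFull_coeffSemi (u : modularFunctionFieldFullC k M) :
    PhiFull k q M (coeffSemi M (frobeniusEquiv k q) • u) = u ^ q :=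
  (pow_eq_PhiFull q M u).symm

variable (S : Setup π w) (hdeg : DegreeInput M k) (hgood : GoodReduction M k)
  {X : NodalDatum Qbar (modularFunctionFieldBar (M * q)) k
      (modularFunctionFieldFullC k M) (modularFunctionFieldFullC k M) A π}

include S hdeg hgood in
theorem adapted_of (h1 : X.R₁ = redOne S) (h2 : X.R₂ = redTwo S)
    (hx : ∃ a : A, X.x = Fermat.Agent.JRED.jL Qbar (M * q) - algebraMap Qbar _ a ∧
      X.x₁ = jRed k M - algebraMap k _ (π a) ∧
      X.x₂ = jRed k M ^ q - algebraMap k _ (π a)) :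
    Adapted (modularDegPair S hdeg hgood) X where
  eq₁ := h1
  eq₂ := h2
  transcendental := jRed_transcendental k M
  shift := by
    obtain ⟨a, e1, e2, e3⟩ := hx
    refine ⟨a, ?_, e2, e3⟩
    rw [e1]
    congr 1

include S hdeg hgood in
/-- Frobenius exchanges the two branches of a node. -/
theorem node_frob (h1 : X.R₁ = redOne S) (h2 : X.R₂ = redTwo S)
    (hx : ∃ a : A, X.x = Fermat.Agent.JRED.jL Qbar (M * q) - algebraMap Qbar _ a ∧
      X.x₁ = jRed k M - algebraMap k _ (π a) ∧
      X.x₂ = jRed k M ^ q - algebraMap k _ (π a))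
    {s : Place k (modularFunctionFieldFullC k M) × Place k (modularFunctionFieldFullC k M)}
    (hs : s ∈ X.nodes) :
    s.1 = coeffSemi M (frobeniusEquiv k q) • s.2 ∧ s.2 = coeffSemi M (frobeniusEquiv k q) • s.1 := by
  have H := adapted_of S hdeg hgood h1 h2 hx
  exact ⟨H.node_fst (g := coeffSemi M (frobeniusEquiv k q)) (fun c => rfl) (coeffSemi_jRed _)
    (fun u => PhiFull_coeffSemi u) hs,
    H.node_snd (g := coeffSemi M (frobeniusEquiv k q)) (fun c => rfl) (coeffSemi_jRed _)
    (fun u => PhiFull_coeffSemi u) hs⟩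

include hdeg hgood in
/-- **Frobenius squared**: compatible, and fixes every node. -/
theorem isCompat_frob_sq (h1 : X.R₁ = redOne S) (h2 : X.R₂ = redTwo S)
    (hx : ∃ a : A, X.x = Fermat.Agent.JRED.jL Qbar (M * q) - algebraMap Qbar _ a ∧
      X.x₁ = jRed k M - algebraMap k _ (π a) ∧
      X.x₂ = jRed k M ^ q - algebraMap k _ (π a))
    {σ : Γℚ} (hσ : A.IsFrobeniusAt σ q) :
    IsCompat X (arithmeticGalois (modularFunctionFieldFull (M * q)) (σ * σ))
        (coeffSemi M (frobeniusEquiv k q * frobeniusEquiv k q))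
        (coeffSemi M (frobeniusEquiv k q * frobeniusEquiv k q)) ∧
      (∀ s ∈ X.nodes, coeffSemi M (frobeniusEquiv k q * frobeniusEquiv k q) • s.1 = s.1 ∧
        coeffSemi M (frobeniusEquiv k q * frobeniusEquiv k q) • s.2 = s.2) ∧
      ∀ c : k, SemilinearAut.baseAut (coeffSemi M (frobeniusEquiv k q * frobeniusEquiv k q)) c =
        c ^ (q ^ 2) := by
  have hres : IsResidual π σ (frobeniusEquiv k q) :=
    isResidual_of_frobenius S.surj hσ _ (fun x => rfl)
  have hfix : ∀ s ∈ X.nodes, coeffSemi M (frobeniusEquiv k q * frobeniusEquiv k q) • s.1 = s.1 ∧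
        coeffSemi M (frobeniusEquiv k q * frobeniusEquiv k q) • s.2 = s.2 := by
    intro s hs
    obtain ⟨e1, e2⟩ := node_frob S hdeg hgood h1 h2 hx hs
    rw [map_mul, mul_smul, mul_smul]
    constructor
    · rw [← e2, ← e1]
    · rw [← e1, ← e2]
  refine ⟨?_, hfix, fun c => ?_⟩
  · obtain ⟨a, hxa, -, -⟩ := hx
    refine isCompat_of_nodes hq.out S X h1 h2 hxa (isResidual_mul hres hres) fun s hs => ?_
    obtain ⟨e1, e2⟩ := hfix s hs
    rw [e1, e2]
    exact hs
  · change (c ^ q) ^ q = c ^ (q ^ 2)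
    rw [← pow_mul, sq]

/-- **Decomposition group**: every `σ ∈ D_A` is compatible, if the datum is complete. -/
theorem isCompat_decomposition (h1 : X.R₁ = redOne S) (h2 : X.R₂ = redTwo S)
    (hx : ∃ a : A, X.x = Fermat.Agent.JRED.jL Qbar (M * q) - algebraMap Qbar _ a ∧
      X.x₁ = jRed k M - algebraMap k _ (π a) ∧
      X.x₂ = jRed k M ^ q - algebraMap k _ (π a)) (hX : NodalComplete X)
    {σ : Γℚ} {τ : k ≃+* k} (hτ : IsResidual π σ τ) :
    IsCompat X (arithmeticGalois (modularFunctionFieldFull (M * q)) σ)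
      (coeffSemi M τ) (coeffSemi M τ) := by
  obtain ⟨a, hxa, hxa1, hxa2⟩ := hx
  have hq0 : q ≠ 0 := hq.out.ne_zero
  have hinv := isResidual_inv hτ
  have hreg : ∀ (s : Place k (modularFunctionFieldFullC k M)),
      jRed k M ∈ s.toValuationSubring → jRed k M ∈ (coeffSemi M τ • s).toValuationSubring := by
    intro s hs
    have h := SemilinearAut.ord_smul (coeffSemi M τ) s (jRed k M)
    rw [coeffSemi_jRed] at h
    have hne : jRed k M ≠ 0 := fun h0 => jRed_transcendental k M (h0 ▸ isAlgebraic_zero)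
    rw [Fermat.FF.mem_iff_ord _ hne] at hs ⊢
    rw [h]
    exact hs
  refine isCompat_of_nodes hq.out S X h1 h2 hxa hτ fun s hs => ?_
  refine nodes_stable hX (g := arithmeticGalois (modularFunctionFieldFull (M * q)) σ)
    (g₁ := coeffSemi M τ) (g₂ := coeffSemi M τ) (fun f u h => ?_) (fun f u h => ?_) rfl ?_
    (fun s hs => ?_) (fun s hs => ?_) hs
  · rw [h1] at h ⊢
    rw [← map_inv, ← map_inv]
    exact redOne_galois S hinv h
  · rw [h2] at h ⊢
    rw [← map_inv, ← map_inv]
    exact redTwo_galois hq.out S hinv h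
  · rw [smul_polesOf, hxa, smul_sub, smul_jL, smul_algebraMap', Nodes.polesOf_sub_algebraMap,
      Nodes.polesOf_sub_algebraMap]
  · have hm : X.x₁ ∈ s.1.toValuationSubring := by
      have hne : X.x₁ ≠ 0 := fun h0 => X.transcendental₁ (h0 ▸ isAlgebraic_zero)
      exact (Fermat.FF.mem_iff_ord _ hne).mpr (X.ord_x₁ s hs).ge
    rw [hxa1, Nodes.mem_sub_algebraMap_iff] at hm ⊢
    exact hreg _ hm
  · have hm : X.x₂ ∈ s.2.toValuationSubring := by
      have hne : X.x₂ ≠ 0 := fun h0 => X.transcendental₂ (h0 ▸ isAlgebraic_zero)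
      exact (Fermat.FF.mem_iff_ord _ hne).mpr (X.ord_x₂ s hs).ge
    rw [hxa2, Nodes.mem_sub_algebraMap_iff, pow_mem_place_iff hq0] at hm ⊢
    exact hreg _ hm

end Modular

end Fermat.Agent.DR.ModGal
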